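import Fermat.Agent.S41.Assembly.NewVector
import Fermat.Agent.S41.Betti.NewLift
import Fermat.Agent.S41.Betti.Transport
import Fermat.Agent.S41.Betti.UOp
import Fermat.Agent.S41.Degen.CastX

/-!
# S41 (V5 + V6 + I3): the closed hypothesis `HNewForm` (architect: helper23)

`hNewForm : Assembly.HNewForm` = helper7's `NewLift.exists_complex_new_vector` (Deligne–Serre
lifting on `K = ker α_* ⊓ ker α_* W`) with `U := U_q` (helper7's `UOp.heckeUX`), `U_q² = 1` on
`castX K` (helper27's `CastX.opX_opX_castX`), then helper7's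
`Transport.exists_cuspForm_of_complex_vector` (`periodMap_heckeULin`).
-/

set_option autoImplicit false

namespace Fermat.Agent.S41.Assembly

open CongruenceSubgroup ModularCurve ModularCurve.Period ModularFormClass
open Fermat.Agent.S29.Betti Fermat.Agent.S41.Betti.LatticeSpan
open Fermat.Agent.S41.Degen Fermat.Agent.S41.Degen.Cor
open Fermat.Agent.S41.Betti
open scoped MatrixGroups

/-- **(6)** the closed hypothesis `HNewForm`. -/
theorem hNewForm : HNewForm := by
  intro p N q _ _ _ _ d ι g θ hK y hy1 hy2 hyp hyT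
  have hqM : q ∣ N * q := Dvd.intro_left N rfl
  let K : Submodule ℤ (XMod (N * q) ℤ ℤ) :=
    LinearMap.ker (corAX ℤ ℤ d) ⊓ LinearMap.ker ((corAX ℤ ℤ d).comp (opWX ℤ ℤ d))
  have hmemK : ∀ z : XMod (N * q) ℤ ℤ,
      z ∈ K ↔ corAX ℤ ℤ d z = 0 ∧ corAX ℤ ℤ d (opWX ℤ ℤ d z) = 0 := by
    intro z
    simp only [K, Submodule.mem_inf, LinearMap.mem_ker, LinearMap.comp_apply]
  obtain ⟨v, θ', 𝔪', hv0, hmax', hp', hT, hU⟩ :=
    NewLift.exists_complex_new_vector p K g
      (fun i z hz => (hmemK _).2 (hK i z ((hmemK z).1 hz).1 ((hmemK z).1 hz).2))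
      θ y ((hmemK y).2 ⟨hy1, hy2⟩) (fun z _ => hyp z)
      (fun i => by
        obtain ⟨z, h1, h2, h3⟩ := hyT i
        exact ⟨z, (hmemK z).2 ⟨h1, h2⟩, h3⟩)
      (UOp.heckeUX hqM ℂ ℂ)
      (fun x hx => by
        rw [UOp.heckeUX_eq_opX]
        exact opX_opX_castX d (UOp.uDatum hqM) (fun j => rfl) ((hmemK x).1 hx).1
          ((hmemK x).1 hx).2)
  have hU' : UOp.heckeUHom hqM ℂ (UOp.heckeUHom hqM ℂ (v : Additive (Gamma0 (N * q)) →+ ℂ)) =
      (v : Additive (Gamma0 (N * q)) →+ ℂ) := by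
    have := congrArg (fun u : XMod (N * q) ℂ ℂ => (u : Additive (Gamma0 (N * q)) →+ ℂ)) hU
    simpa only [UOp.heckeUX_coe] using this
  exact Transport.exists_cuspForm_of_complex_vector hqM (UOp.heckeUHom hqM ℂ)
    (fun f => (UOp.periodMap_heckeULin hqM f).symm)
    (fun c => UOp.heckeUHom_comp hqM ℂ HeckeCommute.conjAdd c) g p θ v hv0 θ' 𝔪' hmax' hp'
    (fun i => (hT i).1) (fun i => (hT i).2) hU'

end Fermat.Agent.S41.Assembly
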