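import Fermat.Agent.S41.Betti.EigenInput
import Fermat.Agent.S41.Betti.HeckeCommute

/-!
# S41 (V7 assembly, part A): the level-`N` input vector (architect: helper23)

From the hypotheses of `Top2.BlockNewVectorSq` (a level-`N` normalised eigenform `f` congruent mod
`𝔪 ∋ p` to the integer system `b` on the primes in `P`, and the level-raising congruence at `q`)
we produce a sign `ε = ±1` and an INTEGRAL class `x ∈ X_ℤ(N) ∖ p X_ℤ(N)` with
`T_ℓ x ≡ b_ℓ x`, `T_q x ≡ ε (q+1) x (mod p)`.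

The index type of the Hecke family used by the whole assembly is `Idx N q p P`
(the primes `ℓ ∤ N q`, `ℓ ∈ P`, `ℓ ≠ p`).
-/

set_option autoImplicit false

namespace Fermat.Agent.S41.Assembly

open CongruenceSubgroup ModularCurve ModularCurve.Period ModularFormClass
open Fermat.Agent.S29.Betti Fermat.Agent.S41.Betti.LatticeSpan
open scoped MatrixGroups

noncomputable section

/-- the index type of the Hecke family: primes `ℓ ∤ N q`, `ℓ ∈ P`, `ℓ ≠ p`. -/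
def Idx (N q p : ℕ) (P : ℕ → Prop) : Type :=
  {ℓ : Nat.Primes // ¬ (ℓ : ℕ) ∣ N * q ∧ P ℓ ∧ (ℓ : ℕ) ≠ p}

namespace Idx

variable {N q p : ℕ} {P : ℕ → Prop}

/-- the underlying prime. -/
def val (i : Idx N q p P) : ℕ := (i.1 : ℕ)

theorem prime (i : Idx N q p P) : i.val.Prime := i.1.2

instance instFact (i : Idx N q p P) : Fact i.val.Prime := ⟨i.prime⟩

theorem not_dvd_mul (i : Idx N q p P) : ¬ i.val ∣ N * q := i.2.1

theorem not_dvd (i : Idx N q p P) : ¬ i.val ∣ N := fun h => i.2.1 (Dvd.dvd.mul_right h q)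

theorem not_dvd_q (i : Idx N q p P) : ¬ i.val ∣ q := fun h => i.2.1 (Dvd.dvd.mul_left h N)

theorem mem (i : Idx N q p P) : P i.val := i.2.2.1

theorem ne (i : Idx N q p P) : i.val ≠ p := i.2.2.2

/-- constructor from the unbundled data. -/
def mk' {ℓ : ℕ} (hℓ : ℓ.Prime) (hℓM : ¬ ℓ ∣ N * q) (hP : P ℓ) (hℓp : ℓ ≠ p) : Idx N q p P :=
  ⟨⟨ℓ, hℓ⟩, hℓM, hP, hℓp⟩

@[simp] theorem mk'_val {ℓ : ℕ} (hℓ : ℓ.Prime) (hℓM : ¬ ℓ ∣ N * q) (hP : P ℓ) (hℓp : ℓ ≠ p) :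
    (mk' hℓ hℓM hP hℓp : Idx N q p P).val = ℓ := rfl

end Idx

/-- the sign from the level-raising congruence: `a² ≡ (q+1)² mod 𝔪` gives `a ≡ ε (q+1)`. -/
theorem exists_sign {𝔪 : Ideal (integralClosure ℤ ℂ)} (hmax : 𝔪.IsMaximal) (q : ℕ)
    {a : integralClosure ℤ ℂ} (ha : a ^ 2 - ((q : integralClosure ℤ ℂ) + 1) ^ 2 ∈ 𝔪) :
    ∃ ε : ℤ, ε * ε = 1 ∧ a - ((ε * ((q : ℤ) + 1) : ℤ) : integralClosure ℤ ℂ) ∈ 𝔪 := by
  have hfac : a ^ 2 - ((q : integralClosure ℤ ℂ) + 1) ^ 2 =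
      (a - ((q : integralClosure ℤ ℂ) + 1)) * (a + ((q : integralClosure ℤ ℂ) + 1)) := by ring
  rw [hfac] at ha
  rcases hmax.isPrime.mem_or_mem ha with h | h
  · refine ⟨1, by norm_num, ?_⟩
    have : ((1 * ((q : ℤ) + 1) : ℤ) : integralClosure ℤ ℂ) = (q : integralClosure ℤ ℂ) + 1 := by
      push_cast; ring
    rw [this]; exact h
  · refine ⟨-1, by norm_num, ?_⟩
    have : a - ((-1 * ((q : ℤ) + 1) : ℤ) : integralClosure ℤ ℂ) =
        a + ((q : integralClosure ℤ ℂ) + 1) := by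
      push_cast; ring
    rw [this]; exact h

/-- **(V7, part A).** The level-`N` integral input vector. -/
theorem exists_level_eigenvector {p N q : ℕ} (hp : p.Prime) [NeZero N] [hq : Fact q.Prime]
    (hqN : ¬ q ∣ N) (f : CuspForm (Gamma0 N) 2) (𝔪 : Ideal (integralClosure ℤ ℂ))
    (hf : f.IsNormalizedEigenform) (hmax : 𝔪.IsMaximal) (hpm : (p : integralClosure ℤ ℂ) ∈ 𝔪)
    (b : ℕ → ℤ) (P : ℕ → Prop)
    (hcong : ∀ ℓ : ℕ, ℓ.Prime → P ℓ → ¬ ℓ ∣ N → ℓ ≠ p →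
      ∃ a : integralClosure ℤ ℂ, (a : ℂ) = ModularFormClass.qCoeff f ℓ ∧
        a - ((b ℓ : ℤ) : integralClosure ℤ ℂ) ∈ 𝔪)
    (hLR : ∃ a : integralClosure ℤ ℂ, (a : ℂ) = ModularFormClass.qCoeff f q ∧
      a ^ 2 - ((q : integralClosure ℤ ℂ) + 1) ^ 2 ∈ 𝔪) :
    ∃ ε : ℤ, ε * ε = 1 ∧ ∃ x : XMod N ℤ ℤ, (∀ x' : XMod N ℤ ℤ, x ≠ (p : ℤ) • x') ∧
      (∀ i : Idx N q p P, ∃ w : XMod N ℤ ℤ,
        heckeX i.not_dvd ℤ ℤ x = b i.val • x + (p : ℤ) • w) ∧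
      ∃ w : XMod N ℤ ℤ, heckeX hqN ℤ ℤ x = (ε * ((q : ℤ) + 1)) • x + (p : ℤ) • w := by
  obtain ⟨a, haq, ha⟩ := hLR
  obtain ⟨ε, hε, haε⟩ := exists_sign hmax q ha
  refine ⟨ε, hε, ?_⟩
  let g : Option (Idx N q p P) → GoodPrime N := fun o =>
    match o with
    | none => ⟨⟨q, hq.out⟩, hqN⟩
    | some i => ⟨i.1, i.not_dvd⟩
  let χ : Option (Idx N q p P) → ℤ := fun o =>
    match o with
    | none => ε * ((q : ℤ) + 1)
    | some i => b i.val
  obtain ⟨x, hx, hT⟩ := Fermat.Agent.S41.Betti.EigenInput.exists_int_eigenvector N hf p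
    hp.ne_zero 𝔪 hmax.ne_top hpm g χ
    (by
      intro o
      match o with
      | none => exact ⟨a, haq, haε⟩
      | some i => exact hcong i.val i.prime i.mem i.not_dvd i.ne)
    (fun o o' => Fermat.Agent.S41.Betti.HeckeCommute.commute_heckeX (g o).2 (g o').2)
  exact ⟨x, hx, fun i => hT (some i), hT none⟩

end

end Fermat.Agent.S41.Assembly
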