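import Fermat.Agent.S41.Top2
import Fermat.Agent.S41.Assembly.Input
import Fermat.Agent.S41.Count.Product
import Fermat.Agent.S41.Betti.RedP
import Fermat.Agent.S41.Degen.TqComp
import Fermat.Agent.S41.PD.ShapiroX
import Fermat.Agent.S41.PD.AdjFormal

/-!
# S41 (V7): assembly of `Top2.BlockNewVectorSq` (architect: helper23)

`blockNewVectorSq_of` proves `Top2.BlockNewVectorSq` from six CLOSED hypotheses, each a `Prop`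
about objects on main:

* `HAdj`      (L5)   : `B_{Nq}(α^* x, h) = B_N(x, α_* h)` for the Poincaré forms `ShapiroX.BX`;
* `HIsomW`    (L5)   : the Atkin–Lehner operator `W` is an isometry of `B_{Nq}`;
* `HCorHecke` (L1/I4): `α_* T_ℓ = T_ℓ α_*` (`ℓ ∤ N q`);
* `HWHecke`   (L1/I4): `W T_ℓ = T_ℓ W` (`ℓ ∤ N q`);
* `HIhara`    (L3)   : mod-`p` Ihara: `α^* c₁ + β^* c₂ = 0 ⟹ (T_r - (r+1))^n c_i = 0`
                        for `r ∤ 2 N q` a square mod `N`;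
* `HNewForm`  (V5+V6+I3): an integral class `y ∈ ker α_* ∩ ker α_* W`, `y ∉ pY`, mod-`p` eigen
                        ⟹ a nonzero cusp form of level `N q`, eigen for the `T_ℓ`, with
                        `U_q U_q v = v`.
-/

set_option autoImplicit false

namespace Fermat.Agent.S41.Assembly

open CongruenceSubgroup ModularCurve ModularCurve.Period ModularFormClass
open Fermat.Agent.S29.Betti Fermat.Agent.S41.Betti.LatticeSpan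
open Fermat.Agent.S41.Degen Fermat.Agent.S41.Degen.Cor Fermat.Agent.S41.Degen.TqComp
open Fermat.Agent.S41.PD.ShapiroX
open scoped MatrixGroups

noncomputable section

/-! ### The closed hypotheses -/

/-- **(L5)** adjointness of `α^*` and `α_*` for the Poincaré forms. -/
def HAdj : Prop :=
  ∀ (N q : ℕ) [NeZero N] [NeZero (N * q)] [Fact q.Prime] (d : ALData N q)
    (x : XMod N ℤ ℤ) (h : XMod (N * q) ℤ ℤ),
    BX (N * q) ℤ (resAX N q ℤ ℤ x) h = BX N ℤ x (corAX ℤ ℤ d h)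

/-- **(L5 / PD6)** the Atkin–Lehner operator is an isometry. -/
def HIsomW : Prop :=
  ∀ (N q : ℕ) [NeZero (N * q)] [Fact q.Prime] (d : ALData N q)
    (y y' : XMod (N * q) ℤ ℤ),
    BX (N * q) ℤ (opWX ℤ ℤ d y) (opWX ℤ ℤ d y') = BX (N * q) ℤ y y'

/-- **(I4)** `α_*` commutes with the `T_ℓ`, `ℓ ∤ N q`. -/
def HCorHecke : Prop :=
  ∀ (N q : ℕ) [Fact q.Prime] (d : ALData N q) (ℓ : ℕ) [Fact ℓ.Prime]
    (hℓM : ¬ ℓ ∣ N * q) (hℓN : ¬ ℓ ∣ N) (y : XMod (N * q) ℤ ℤ),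
    corAX ℤ ℤ d (heckeX hℓM ℤ ℤ y) = heckeX hℓN ℤ ℤ (corAX ℤ ℤ d y)

/-- **(I4)** `W` commutes with the `T_ℓ`, `ℓ ∤ N q`. -/
def HWHecke : Prop :=
  ∀ (N q : ℕ) [Fact q.Prime] (d : ALData N q) (ℓ : ℕ) [Fact ℓ.Prime]
    (hℓM : ¬ ℓ ∣ N * q) (y : XMod (N * q) ℤ ℤ),
    opWX ℤ ℤ d (heckeX hℓM ℤ ℤ y) = heckeX hℓM ℤ ℤ (opWX ℤ ℤ d y)

/-- **(L3, BlockIhara)** mod-`p` Ihara lemma in nilpotent form, for `r ∤ 2 N q` a square mod `N`. -/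
def HIhara : Prop :=
  ∀ (p N q : ℕ) [Fact p.Prime] [Fact q.Prime], p ≠ 2 → 0 < N → ¬ q ∣ N → q ≠ p →
  ∀ (r : ℕ) [Fact r.Prime] (hrN : ¬ r ∣ N), ¬ r ∣ 2 * N * q →
    (∃ lam : ℤ, lam ^ 2 ≡ (r : ℤ) [ZMOD (N : ℤ)]) →
  ∀ c₁ c₂ : XMod N (ZMod p) (ZMod p),
    resAX N q (ZMod p) (ZMod p) c₁ + resBX N q (ZMod p) (ZMod p) c₂ = 0 →
    ∃ n : ℕ,
      ((heckeX hrN (ZMod p) (ZMod p) -
        ((((r : ℤ) + 1 : ℤ) : ZMod p)) • (1 : Module.End (ZMod p) (XMod N (ZMod p) (ZMod p)))) ^ n)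
          c₁ = 0 ∧
      ((heckeX hrN (ZMod p) (ZMod p) -
        ((((r : ℤ) + 1 : ℤ) : ZMod p)) • (1 : Module.End (ZMod p) (XMod N (ZMod p) (ZMod p)))) ^ n)
          c₂ = 0

/-- **(V5 + V6 + I3)** from the integral new vector to a cusp form. -/
def HNewForm : Prop :=
  ∀ (p N q : ℕ) [Fact p.Prime] [NeZero N] [Fact q.Prime] [NeZero (N * q)] (d : ALData N q)
    {ι : Type} (g : ι → GoodPrime (N * q)) (θ : ι → ℤ),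
    (∀ i (z : XMod (N * q) ℤ ℤ), corAX ℤ ℤ d z = 0 → corAX ℤ ℤ d (opWX ℤ ℤ d z) = 0 →
      corAX ℤ ℤ d (heckeX (g i).2 ℤ ℤ z) = 0 ∧
      corAX ℤ ℤ d (opWX ℤ ℤ d (heckeX (g i).2 ℤ ℤ z)) = 0) →
  ∀ y : XMod (N * q) ℤ ℤ,
    corAX ℤ ℤ d y = 0 → corAX ℤ ℤ d (opWX ℤ ℤ d y) = 0 →
    (∀ z : XMod (N * q) ℤ ℤ, y ≠ (p : ℤ) • z) →
    (∀ i, ∃ z : XMod (N * q) ℤ ℤ, corAX ℤ ℤ d z = 0 ∧ corAX ℤ ℤ d (opWX ℤ ℤ d z) = 0 ∧
      heckeX (g i).2 ℤ ℤ y = θ i • y + (p : ℤ) • z) →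
    ∃ (v : CuspForm (Gamma0 (N * q)) 2) (θ' : ι → integralClosure ℤ ℂ)
      (𝔪' : Ideal (integralClosure ℤ ℂ)),
      v ≠ 0 ∧ 𝔪'.IsMaximal ∧ (p : integralClosure ℤ ℂ) ∈ 𝔪' ∧
      (∀ i, CuspForm.heckeTLin 2 (g i).1.2 (g i).2 v = ((θ' i : integralClosure ℤ ℂ) : ℂ) • v ∧
        θ' i - ((θ i : ℤ) : integralClosure ℤ ℂ) ∈ 𝔪') ∧
      CuspForm.heckeULin 2 (Dvd.intro_left N rfl : q ∣ N * q)
        (CuspForm.heckeULin 2 (Dvd.intro_left N rfl : q ∣ N * q) v) = v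

/-! ### Formal consequences at one pair of levels -/

section Level

variable {N q : ℕ} [NeZero N] [NeZero (N * q)] [Fact q.Prime] (d : ALData N q)

/-- `β_* := α_* ∘ W`. -/
def corBX : XMod (N * q) ℤ ℤ →ₗ[ℤ] XMod N ℤ ℤ := (corAX ℤ ℤ d).comp (opWX ℤ ℤ d)

@[simp] theorem corBX_apply (h : XMod (N * q) ℤ ℤ) :
    corBX d h = corAX ℤ ℤ d (opWX ℤ ℤ d h) := rfl

theorem hadjB (hA : HAdj) (hW : HIsomW) (x : XMod N ℤ ℤ) (h : XMod (N * q) ℤ ℤ) :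
    BX (N * q) ℤ (resBX N q ℤ ℤ x) h = BX N ℤ x (corBX d h) := by
  rw [resBX_eq ℤ ℤ d, corBX_apply]
  exact Fermat.Agent.S41.PD.AdjFormal.adj_twist (BX N ℤ) (BX (N * q) ℤ) (resAX N q ℤ ℤ)
    (corAX ℤ ℤ d) (opWX ℤ ℤ d) (hA N q d) (hW N q d) (opWX_opWX ℤ ℤ d) x h

include d in
theorem hself (hA : HAdj) (hW : HIsomW) (hqN : ¬ q ∣ N) (x w : XMod N ℤ ℤ) :
    BX N ℤ x (heckeX hqN ℤ ℤ w) = BX N ℤ (heckeX hqN ℤ ℤ x) w :=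
  Fermat.Agent.S41.PD.AdjFormal.selfadj_of_resB (BX N ℤ) (BX (N * q) ℤ) (resAX N q ℤ ℤ)
    (corAX ℤ ℤ d) (opWX ℤ ℤ d) (heckeX hqN ℤ ℤ) (resBX N q ℤ ℤ) (resBX_eq ℤ ℤ d)
    (corAX_resBX d hqN ℤ ℤ) (hA N q d) (hW N q d) (opWX_opWX ℤ ℤ d) (BX_skew N ℤ)
    (BX_skew (N * q) ℤ) x w

variable {ℓ : ℕ} [Fact ℓ.Prime]

theorem resAX_heckeX {R : Type*} [Semiring R] {A : Type*} [AddCommGroup A] [Module R A]
    (hℓM : ¬ ℓ ∣ N * q) (hℓN : ¬ ℓ ∣ N) (x : XMod N R A) :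
    resAX N q R A (heckeX hℓN R A x) = heckeX hℓM R A (resAX N q R A x) :=
  Subtype.ext (heckeHom_resA hℓM hℓN (x : Additive (Gamma0 N) →+ A)).symm

include d in
theorem resBX_heckeX (hWT : HWHecke) (hℓM : ¬ ℓ ∣ N * q) (hℓN : ¬ ℓ ∣ N) (x : XMod N ℤ ℤ) :
    resBX N q ℤ ℤ (heckeX hℓN ℤ ℤ x) = heckeX hℓM ℤ ℤ (resBX N q ℤ ℤ x) := by
  rw [resBX_eq ℤ ℤ d, resBX_eq ℤ ℤ d, resAX_heckeX hℓM hℓN, hWT N q d ℓ hℓM]

theorem corBX_heckeX (hCT : HCorHecke) (hWT : HWHecke) (hℓM : ¬ ℓ ∣ N * q) (hℓN : ¬ ℓ ∣ N)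
    (h : XMod (N * q) ℤ ℤ) :
    corBX d (heckeX hℓM ℤ ℤ h) = heckeX hℓN ℤ ℤ (corBX d h) := by
  rw [corBX_apply, corBX_apply, hWT N q d ℓ hℓM, hCT N q d ℓ hℓM hℓN]

end Level

/-! ### Reduction mod `p` commutes with the degeneracy maps -/

section Red

open Fermat.Agent.S41.Betti.RedP

variable {N q : ℕ} [Fact q.Prime] (p : ℕ)

theorem redX_resAX (x : XMod N ℤ ℤ) :
    redX p (resAX N q ℤ ℤ x) = resAX N q (ZMod p) (ZMod p) (redX p x) :=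
  Subtype.ext (AddMonoidHom.ext fun _ => rfl)

theorem redX_resBX (x : XMod N ℤ ℤ) :
    redX p (resBX N q ℤ ℤ x) = resBX N q (ZMod p) (ZMod p) (redX p x) :=
  Subtype.ext (AddMonoidHom.ext fun _ => rfl)

end Red

/-! ### The main theorem -/

open Fermat.Agent.S41.Betti.RedP in
/-- **(V7)** `Top2.BlockNewVectorSq` from the six closed hypotheses. -/
theorem blockNewVectorSq_of (hA : HAdj) (hW : HIsomW) (hCT : HCorHecke) (hWT : HWHecke)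
    (hIh : HIhara) (hNF : HNewForm) : Fermat.Agent.S41.Top2.BlockNewVectorSq := by
  intro p N q hp hp2 hN hq hqN hqp _ f 𝔪 hf hmax hpm b P hcong hLR hw
  haveI : Fact p.Prime := ⟨hp⟩
  haveI : Fact q.Prime := ⟨hq⟩
  haveI : NeZero N := ⟨hN.ne'⟩
  obtain ⟨ℓ₀, hℓ₀, hPℓ₀, hℓ₀M, hℓ₀p, hsq, hne⟩ := hw
  haveI : Fact ℓ₀.Prime := ⟨hℓ₀⟩
  have hℓ₀Nq : ¬ ℓ₀ ∣ N * q := fun h => hℓ₀M (by
    rw [mul_assoc]; exact Dvd.dvd.mul_left h 2)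
  have hℓ₀N : ¬ ℓ₀ ∣ N := fun h => hℓ₀Nq (Dvd.dvd.mul_right h q)
  haveI : NeZero (N * ℓ₀) := ⟨Nat.mul_ne_zero hN.ne' hℓ₀.ne_zero⟩
  obtain ⟨d⟩ := nonempty_ALData (N := N) (q := q) ((Nat.Prime.coprime_iff_not_dvd hq).mpr hqN)
  obtain ⟨d₀⟩ := nonempty_ALData (N := N) (q := ℓ₀)
    ((Nat.Prime.coprime_iff_not_dvd hℓ₀).mpr hℓ₀N)
  -- the level `N` input
  obtain ⟨ε, hε, x, hx, hxT, hxq⟩ :=
    exists_level_eigenvector hp hqN f 𝔪 hf hmax hpm b P hcong hLR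
  let i0 : Idx N q p P := Idx.mk' hℓ₀ hℓ₀Nq hPℓ₀ hℓ₀p
  -- mod `p` Ihara in "no eigenvector" form
  have hnoEig : ∀ c₁ c₂ : XMod N (ZMod p) (ZMod p),
      (resAX N q (ZMod p) (ZMod p)).toAddMonoidHom c₁ +
        (resBX N q (ZMod p) (ZMod p)).toAddMonoidHom c₂ = 0 →
      (heckeX hℓ₀N (ZMod p) (ZMod p)).toAddMonoidHom c₁ = b ℓ₀ • c₁ →
      (heckeX hℓ₀N (ZMod p) (ZMod p)).toAddMonoidHom c₂ = b ℓ₀ • c₂ → c₁ = 0 ∧ c₂ = 0 := by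
    intro c₁ c₂ h0 h₁ h₂
    exact noEigen_zsmul_of_nilpotent p (resAX N q (ZMod p) (ZMod p)).toAddMonoidHom
      (resBX N q (ZMod p) (ZMod p)).toAddMonoidHom (heckeX hℓ₀N (ZMod p) (ZMod p))
      ((ℓ₀ : ℤ) + 1) (b ℓ₀) hne
      (fun c₁ c₂ h => hIh p N q hp2 hN hqN hqp ℓ₀ hℓ₀N hℓ₀M hsq c₁ c₂ h) c₁ c₂ h0 h₁ h₂
  have hIhara : ∀ x1 x2 : XMod N ℤ ℤ,
      (∃ z : XMod (N * q) ℤ ℤ, resAX N q ℤ ℤ x1 + resBX N q ℤ ℤ x2 = (p : ℤ) • z) →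
      (∃ w : XMod N ℤ ℤ, heckeX hℓ₀N ℤ ℤ x1 = b ℓ₀ • x1 + (p : ℤ) • w) →
      (∃ w : XMod N ℤ ℤ, heckeX hℓ₀N ℤ ℤ x2 = b ℓ₀ • x2 + (p : ℤ) • w) →
      (∃ w : XMod N ℤ ℤ, x1 = (p : ℤ) • w) ∧ (∃ w : XMod N ℤ ℤ, x2 = (p : ℤ) • w) := by
    intro x1 x2 hU h1 h2
    exact ihara_int p (redX p) (redX p)
      (fun c hc => (redX_eq_zero_iff p hp.ne_zero c).mp hc)
      (natCast_smul_eq_zero p) (natCast_smul_eq_zero p)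
      (resAX N q ℤ ℤ).toAddMonoidHom (resBX N q ℤ ℤ).toAddMonoidHom
      (resAX N q (ZMod p) (ZMod p)).toAddMonoidHom (resBX N q (ZMod p) (ZMod p)).toAddMonoidHom
      (redX_resAX p) (redX_resBX p)
      (heckeX hℓ₀N ℤ ℤ).toAddMonoidHom (heckeX hℓ₀N (ZMod p) (ZMod p)).toAddMonoidHom
      (redX_heckeX p hℓ₀N) (b ℓ₀) hnoEig x1 x2 hU h1 h2
  -- the counting argument
  have hqq : ∀ u : XMod N ℤ ℤ, corAX ℤ ℤ d (resAX N q ℤ ℤ u) = ((q : ℤ) + 1) • u := by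
    intro u
    rw [corAX_resAX]
    have : ((q : ℤ) + 1) = ((q + 1 : ℕ) : ℤ) := by push_cast; rfl
    rw [this, natCast_zsmul]
  obtain ⟨y, hyA, hyB, hy, hyT⟩ :=
    Fermat.Agent.S41.Count.Product.exists_new_eigenvector p (resAX N q ℤ ℤ) (resBX N q ℤ ℤ)
      (corAX ℤ ℤ d) (corBX d) (BX N ℤ) (BX (N * q) ℤ) (hA N q d) (hadjB d hA hW)
      (fun i : Idx N q p P => heckeX i.not_dvd ℤ ℤ) (fun i => heckeX i.not_dvd_mul ℤ ℤ)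
      (fun i u => resAX_heckeX i.not_dvd_mul i.not_dvd u)
      (fun i u => resBX_heckeX d hWT i.not_dvd_mul i.not_dvd u)
      (fun i h => hCT N q d i.val i.not_dvd_mul i.not_dvd h)
      (fun i h => corBX_heckeX d hCT hWT i.not_dvd_mul i.not_dvd h)
      i0 (fun i => b i.val)
      (fun u w => hself d₀ hA hW hℓ₀N u w)
      hIhara
      (heckeX hqN ℤ ℤ) (heckeX hqN ℤ ℤ) ((q : ℤ) + 1)
      hqq
      (fun u => corAX_resBX d hqN ℤ ℤ u)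
      (fun u => by rw [corBX_apply, ← resBX_eq ℤ ℤ d]; exact corAX_resBX d hqN ℤ ℤ u)
      (fun u => by rw [corBX_apply, resBX_eq ℤ ℤ d, opWX_opWX]; exact hqq u)
      ε hε (BX_bijective N ℤ).surjective (BX_bijective (N * q) ℤ) x hx hxT hxq hxq
  -- lifting to a cusp form
  obtain ⟨v, θ', 𝔪', hv0, hmax', hp', hT, hU⟩ := hNF p N q d
    (fun i : Idx N q p P => (⟨i.1, i.not_dvd_mul⟩ : GoodPrime (N * q))) (fun i => b i.val)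
    (by
      intro i z hz1 hz2
      have e1 : corAX ℤ ℤ d (heckeX i.not_dvd_mul ℤ ℤ z) = 0 := by
        rw [hCT N q d i.val i.not_dvd_mul i.not_dvd, hz1, map_zero]
      have e2 : corAX ℤ ℤ d (opWX ℤ ℤ d (heckeX i.not_dvd_mul ℤ ℤ z)) = 0 := by
        rw [hWT N q d i.val i.not_dvd_mul, hCT N q d i.val i.not_dvd_mul i.not_dvd, hz2, map_zero]
      exact ⟨e1, e2⟩)
    y hyA hyB hy (fun i => hyT i)
  classical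
  refine ⟨v, fun ℓ => if h : ℓ.Prime ∧ ¬ ℓ ∣ N * q ∧ P ℓ ∧ ℓ ≠ p then
      θ' (Idx.mk' h.1 h.2.1 h.2.2.1 h.2.2.2) else 0, 𝔪', hv0, hmax', hp', ?_, hU⟩
  intro ℓ hℓ hℓM hPℓ hℓp
  have hcond : ℓ.Prime ∧ ¬ ℓ ∣ N * q ∧ P ℓ ∧ ℓ ≠ p := ⟨hℓ, hℓM, hPℓ, hℓp⟩
  dsimp only
  rw [dif_pos hcond]
  exact hT (Idx.mk' hℓ hℓM hPℓ hℓp)

end

end Fermat.Agent.S41.Assembly
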