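import Fermat.Agent.S41.Assembly.NewVector
import Fermat.Agent.S41.Ihara.Block
import Fermat.Agent.S41.Betti.NewFormOf
import Fermat.Agent.S41.Degen.UPeriod

/-!
# S41 / V7 interface: the leaves (5) `HIhara` and (6) `HNewForm` in the exact closed shapes
of `Assembly/NewVector.lean` (helper16)

* `hIhara : Assembly.HIhara` from `Ihara.Block.hIharaStmt` (BlockIhara for `r` a square mod `N`);
* `hNewForm : Assembly.HNewForm` from `Betti.NewFormOf.newForm_of` with the `U`-package of
  helper27's `Degen/UDatum.lean` + `Degen/UPeriod.lean` (`UA := Degen.heckeU ℂ (q_dvd N q)`).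
-/

set_option autoImplicit false

namespace Fermat.Agent.S41.Assembly.Leaves56

open CongruenceSubgroup ModularCurve ModularCurve.Period
open Fermat.Agent.S29.Betti Fermat.Agent.S41.Betti.LatticeSpan
open Fermat.Agent.S41.Betti.HeckeCommute
open Fermat.Agent.S41.Degen Fermat.Agent.S41.Degen.Cor
open scoped MatrixGroups

noncomputable section

/-- leaf (5). -/
theorem hIhara : Fermat.Agent.S41.Assembly.HIhara :=
  Fermat.Agent.S41.Ihara.Block.hIharaStmt

/-- leaf (6). -/
theorem hNewForm : Fermat.Agent.S41.Assembly.HNewForm := by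
  intro p N q _ _ _ _ d ι g θ hK y hy1 hy2 hyp hyT
  exact Fermat.Agent.S41.Betti.NewFormOf.newForm_of d p (heckeU ℂ (q_dvd N q))
    (fun f => (periodMap_heckeULin (q_dvd N q) f).symm)
    (fun c => heckeU_comp ℂ (q_dvd N q) conjAdd c)
    (fun z c => heckeU_smul (q_dvd N q) z c)
    (fun x h1 h2 => heckeU_heckeU_castX d h1 h2)
    g θ hK y hy1 hy2 hyp hyT

end

end Fermat.Agent.S41.Assembly.Leaves56
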